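import Fermat.Agent.MUL.Orig.F4.Duality
import Fermat.Agent.MUL.Orig.F4.HyperLES
import Fermat.Agent.MUL.Orig.F4.Shapiro.Hyper

/-!
# F4 / DDT / Basic : generalities for the dévissage duality theorem

* `exists_dual_factor` : a linear form vanishing on `ker f` factors through `f` (over a field);
* `homRep_smooth`, `homCx_smooth` : `Hom_k(N, K)` is smooth for `N` finite smooth, `K` smooth;
* `homCx_shortExact` : `0 → Hom(N'', K) → Hom(N, K) → Hom(N', K) → 0` is termwise exact;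
* `Z1map`, `H1smMap` : functoriality of smooth `H¹` in the coefficients;
* `H1sm_exact_mid` : exactness of `H¹(N') → H¹(N) → H¹(N'')` in the middle;
* `exists_boundary` : the connecting map `H⁰(N'') → H¹(N')` on representatives.
-/

set_option autoImplicit false

open CategoryTheory groupCohomology

namespace Fermat.Agent.F4

section LinearAlgebra

variable {k : Type*} [Field k] {V W : Type*} [AddCommGroup V] [Module k V]
  [AddCommGroup W] [Module k W]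

/-- Over a field, a linear form vanishing on `ker f` factors through `f`. -/
theorem exists_dual_factor (f : V →ₗ[k] W) (l : V →ₗ[k] k)
    (h : ∀ v, f v = 0 → l v = 0) : ∃ φ : W →ₗ[k] k, ∀ v, φ (f v) = l v := by
  have hl : l ∈ (LinearMap.ker f).dualAnnihilator := by
    rw [Submodule.mem_dualAnnihilator]
    intro v hv
    exact h v (LinearMap.mem_ker.1 hv)
  rw [← LinearMap.range_dualMap_eq_dualAnnihilator_ker] at hl
  obtain ⟨φ, hφ⟩ := hl
  exact ⟨φ, fun v => by rw [← hφ]; rfl⟩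

end LinearAlgebra

variable {k G : Type} [Field k] [Group G]

/-! ### Smoothness of `Hom(N, K)` -/

section Smooth

variable (𝓤 : Levels G)

theorem homRep_smooth (N A : Rep.{0} k G) (hN : IsSmooth 𝓤 N) (hfin : Module.Finite k N)
    (hA : IsSmooth 𝓤 A) : IsSmooth 𝓤 (homRep N A) := by
  classical
  intro f
  obtain ⟨V, hV, hVN⟩ := exists_level_fixing 𝓤 N hN
  obtain ⟨s, hs⟩ := (Module.finite_def (R := k) (M := N)).1 hfin
  choose! W hW hWfix using fun n : N => hA ((f : N →ₗ[k] A) n)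
  obtain ⟨W₀, hW₀, hW₀le⟩ := 𝓤.exists_le_finset s W (fun n _ => hW n)
  obtain ⟨W₁, hW₁, hW₁le⟩ := 𝓤.directed W₀ hW₀ V hV
  refine ⟨W₁, hW₁, fun g hg => ?_⟩
  refine LinearMap.ext fun n => ?_
  rw [homRep_ρ_apply]
  have hgV : g⁻¹ ∈ V := V.inv_mem (hW₁le hg).2
  rw [hVN g⁻¹ hgV n]
  have hn : n ∈ Submodule.span k (s : Set N) := by rw [hs]; trivial
  induction hn using Submodule.span_induction with
  | mem x hx => exact hWfix x g (hW₀le x hx (hW₁le hg).1)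
  | zero => simp
  | add x y _ _ hx hy => rw [map_add, map_add, hx, hy]
  | smul c x _ hx => rw [map_smul, map_smul, hx]

theorem homCx_smooth (K : Cx k G) (hK : K.Smooth 𝓤) (N : Rep.{0} k G) (hN : IsSmooth 𝓤 N)
    (hfin : Module.Finite k N) : (homCx N K).Smooth 𝓤 :=
  ⟨homRep_smooth 𝓤 N K.K0 hN hfin hK.1, homRep_smooth 𝓤 N K.K1 hN hfin hK.2⟩

end Smooth

/-! ### Short exact sequences of modules -/

/-- A short exact sequence `0 → N' → N → N'' → 0` of `k[G]`-modules, unbundled. -/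
structure RepSES {N' N N'' : Rep.{0} k G} (i : N' →ₗ[k] N) (q : N →ₗ[k] N'') : Prop where
  hi : ∀ (g : G) (n : N'), i (N'.ρ g n) = N.ρ g (i n)
  hq : ∀ (g : G) (n : N), q (N.ρ g n) = N''.ρ g (q n)
  inj : Function.Injective i
  surj : Function.Surjective q
  exact : ∀ n, q n = 0 ↔ ∃ n', i n' = n

section SES

variable {N' N N'' : Rep.{0} k G} {i : N' →ₗ[k] N} {q : N →ₗ[k] N''}

lemma RepSES.q_i (h : RepSES i q) (n' : N') : q (i n') = 0 := (h.exact _).2 ⟨n', rfl⟩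

/-- `0 → Hom(N'', K) → Hom(N, K) → Hom(N', K) → 0` is termwise exact. -/
theorem homCx_shortExact (K : Cx k G) (h : RepSES i q) :
    CxShortExact (homCxMap q h.hq K) (homCxMap i h.hi K) := by
  obtain ⟨r, hr⟩ := i.exists_leftInverse_of_injective (LinearMap.ker_eq_bot.2 h.inj)
  obtain ⟨s, hs⟩ := q.exists_rightInverse_of_surjective (LinearMap.range_eq_top.2 h.surj)
  have hr' : ∀ n', r (i n') = n' := fun n' => congrArg (fun f : N' →ₗ[k] N' => f n') hr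
  have hs' : ∀ n'', q (s n'') = n'' := fun n'' => congrArg (fun f : N'' →ₗ[k] N'' => f n'') hs
  have key : ∀ (A : Rep.{0} k G) (f : N →ₗ[k] A), f.comp i = 0 → (f.comp s).comp q = f := by
    intro A f hf
    refine LinearMap.ext fun n => ?_
    have hker : q (n - s (q n)) = 0 := by rw [map_sub, hs', sub_self]
    obtain ⟨n', hn'⟩ := (h.exact _).1 hker
    have h0 : f (i n') = 0 := congrArg (fun φ : N' →ₗ[k] A => φ n') hf
    rw [hn', map_sub, sub_eq_zero] at h0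
    exact h0.symm
  refine ⟨?_, ?_, ?_, ?_, ?_, ?_⟩
  · intro f f' hff'
    refine LinearMap.ext fun n'' => ?_
    obtain ⟨n, rfl⟩ := h.surj n''
    exact congrArg (fun φ : N →ₗ[k] K.K0 => φ n) hff'
  · intro f f' hff'
    refine LinearMap.ext fun n'' => ?_
    obtain ⟨n, rfl⟩ := h.surj n''
    exact congrArg (fun φ : N →ₗ[k] K.K1 => φ n) hff'
  · intro f'
    refine ⟨(f' : N' →ₗ[k] K.K0).comp r, LinearMap.ext fun n' => ?_⟩
    show (f' : N' →ₗ[k] K.K0) (r (i n')) = (f' : N' →ₗ[k] K.K0) n'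
    rw [hr']
  · intro f'
    refine ⟨(f' : N' →ₗ[k] K.K1).comp r, LinearMap.ext fun n' => ?_⟩
    show (f' : N' →ₗ[k] K.K1) (r (i n')) = (f' : N' →ₗ[k] K.K1) n'
    rw [hr']
  · intro f
    constructor
    · intro hf
      exact ⟨(f : N →ₗ[k] K.K0).comp s, key K.K0 f hf⟩
    · rintro ⟨f'', rfl⟩
      refine LinearMap.ext fun n' => ?_
      show (f'' : N'' →ₗ[k] K.K0) (q (i n')) = 0
      rw [h.q_i, map_zero]
  · intro f
    constructor
    · intro hf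
      exact ⟨(f : N →ₗ[k] K.K1).comp s, key K.K1 f hf⟩
    · rintro ⟨f'', rfl⟩
      refine LinearMap.ext fun n' => ?_
      show (f'' : N'' →ₗ[k] K.K1) (q (i n')) = 0
      rw [h.q_i, map_zero]

end SES

/-! ### Functoriality of smooth `H¹` in the coefficients -/

section H1

variable (𝓤 : Levels G) {N N' : Rep.{0} k G} (φ : N →ₗ[k] N')
  (hφ : ∀ (g : G) (n : N), φ (N.ρ g n) = N'.ρ g (φ n))

lemma mem_Z1_iff (N : Rep.{0} k G) (y : G → N) :
    y ∈ Z1 𝓤 N ↔ (∀ g h : G, y (g * h) = N.ρ g (y h) + y g) ∧ IsLC₁ 𝓤 y := by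
  simp only [Z1, Submodule.mem_inf, mem_lc₁_iff]
  rw [mem_cocycles₁_iff]

lemma mem_B1_iff (N : Rep.{0} k G) (y : G → N) : y ∈ B1 N ↔ ∃ n : N, δ0 N n = y := by
  simp only [B1, LinearMap.mem_range]
  rfl

include hφ in
lemma comp_mem_Z1 {y : G → N} (hy : y ∈ Z1 𝓤 N) : (fun g => φ (y g)) ∈ Z1 𝓤 N' := by
  obtain ⟨h1, h2⟩ := (mem_Z1_iff 𝓤 N y).1 hy
  refine (mem_Z1_iff 𝓤 N' _).2 ⟨fun g h => ?_, h2.comp φ⟩
  show φ (y (g * h)) = N'.ρ g (φ (y h)) + φ (y g)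
  rw [h1, map_add, hφ]

/-- The map induced on smooth 1-cocycles by an equivariant map of coefficients. -/
def Z1map : ↥(Z1 𝓤 N) →ₗ[k] ↥(Z1 𝓤 N') where
  toFun y := ⟨fun g => φ (y.1 g), comp_mem_Z1 𝓤 φ hφ y.2⟩
  map_add' y y' := by
    refine Subtype.ext (funext fun g => ?_)
    show φ (y.1 g + y'.1 g) = φ (y.1 g) + φ (y'.1 g)
    rw [map_add]
  map_smul' c y := by
    refine Subtype.ext (funext fun g => ?_)
    show φ (c • y.1 g) = c • φ (y.1 g)
    rw [map_smul]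

@[simp] lemma Z1map_coe (y : ↥(Z1 𝓤 N)) (g : G) :
    ((Z1map 𝓤 φ hφ y : ↥(Z1 𝓤 N')) : G → N') g = φ (y.1 g) := rfl

/-- The map induced on smooth `H¹` by an equivariant map of coefficients. -/
def H1smMap : H1sm 𝓤 N →ₗ[k] H1sm 𝓤 N' :=
  Submodule.mapQ _ _ (Z1map 𝓤 φ hφ) (by
    rintro y ⟨n, hn⟩
    refine ⟨φ n, ?_⟩
    funext g
    have := congrFun hn g
    simp only [Submodule.subtype_apply] at this
    show (d₀₁ N').hom (φ n) g = φ (y.1 g)
    rw [← this]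
    simp [d₀₁_hom_apply, hφ])

@[simp] lemma H1smMap_mk (y : ↥(Z1 𝓤 N)) :
    H1smMap 𝓤 φ hφ (H1smπ 𝓤 N y) = H1smπ 𝓤 N' (Z1map 𝓤 φ hφ y) := rfl

lemma H1smπ_eq_zero_iff (N : Rep.{0} k G) (y : ↥(Z1 𝓤 N)) :
    H1smπ 𝓤 N y = 0 ↔ ∃ n : N, δ0 N n = y.1 := by
  rw [H1smπ, Submodule.mkQ_apply, Submodule.Quotient.mk_eq_zero, Submodule.mem_comap,
    Submodule.subtype_apply, mem_B1_iff]

lemma H1smπ_surjective (N : Rep.{0} k G) : Function.Surjective (H1smπ 𝓤 N) :=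
  Submodule.mkQ_surjective _

end H1

/-! ### The cohomology sequence of `0 → N' → N → N'' → 0` in degrees `0`, `1` -/

section LES

variable (𝓤 : Levels G) {N' N N'' : Rep.{0} k G} {i : N' →ₗ[k] N} {q : N →ₗ[k] N''}

lemma isLC₁_δ0_of_smooth {N : Rep.{0} k G} (hN : IsSmooth 𝓤 N) (n : N) : IsLC₁ 𝓤 (δ0 N n) :=
  isLC₁_δ0 hN n

/-- Pull back an `N`-valued cocycle with values in `i(N')` to `N'`. -/
lemma RepSES.exists_Z1_of_q_eq_zero (h : RepSES i q) {y : G → N} (hy : y ∈ Z1 𝓤 N)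
    (hq0 : ∀ g, q (y g) = 0) : ∃ y' : ↥(Z1 𝓤 N'), ∀ g, i (y'.1 g) = y g := by
  choose y' hy' using fun g => (h.exact (y g)).1 (hq0 g)
  obtain ⟨h1, h2⟩ := (mem_Z1_iff 𝓤 N y).1 hy
  refine ⟨⟨y', (mem_Z1_iff 𝓤 N' y').2 ⟨fun g g' => ?_, ?_⟩⟩, hy'⟩
  · apply h.inj
    rw [map_add, h.hi, hy', hy', hy', h1]
  · obtain ⟨U, hU, hUy⟩ := h2
    refine ⟨U, hU, fun g s hs => ?_⟩
    apply h.inj
    rw [hy', hy', hUy g s hs]

/-- The connecting map `H⁰(N'') → H¹(N')` on representatives: an invariant `n''` lifts to `n`,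
and `g ↦ g n - n` comes from a smooth cocycle of `N'`. -/
lemma RepSES.exists_boundary (h : RepSES i q) (hN : IsSmooth 𝓤 N) (n'' : N'')
    (hn'' : ∀ g : G, N''.ρ g n'' = n'') :
    ∃ (n : N) (y' : ↥(Z1 𝓤 N')), q n = n'' ∧ ∀ g, i (y'.1 g) = N.ρ g n - n := by
  obtain ⟨n, rfl⟩ := h.surj n''
  have hZ : δ0 N n ∈ Z1 𝓤 N := by
    refine (mem_Z1_iff 𝓤 N _).2 ⟨fun g g' => ?_, isLC₁_δ0 hN n⟩
    simp only [δ0_apply, map_mul, Module.End.mul_apply, map_sub]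
    abel
  obtain ⟨y', hy'⟩ := h.exists_Z1_of_q_eq_zero 𝓤 hZ (fun g => by
    rw [δ0_apply, map_sub, h.hq, hn'', sub_self])
  exact ⟨n, y', rfl, fun g => by rw [hy', δ0_apply]⟩

/-- Exactness of `H¹(N') → H¹(N) → H¹(N'')` at `H¹(N)`. -/
theorem RepSES.H1sm_exact_mid (h : RepSES i q) (hN : IsSmooth 𝓤 N) (x : H1sm 𝓤 N)
    (hx : H1smMap 𝓤 q h.hq x = 0) : ∃ x' : H1sm 𝓤 N', H1smMap 𝓤 i h.hi x' = x := by
  obtain ⟨y, rfl⟩ := H1smπ_surjective 𝓤 N x
  rw [H1smMap_mk, H1smπ_eq_zero_iff] at hx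
  obtain ⟨n'', hn''⟩ := hx
  obtain ⟨n, rfl⟩ := h.surj n''
  -- `y - δ n` has values in `ker q`
  have hZ : (y.1 - δ0 N n) ∈ Z1 𝓤 N := by
    refine (Z1 𝓤 N).sub_mem y.2 ?_
    refine (mem_Z1_iff 𝓤 N _).2 ⟨fun g g' => ?_, isLC₁_δ0 hN n⟩
    simp only [δ0_apply, map_mul, Module.End.mul_apply, map_sub]
    abel
  obtain ⟨y', hy'⟩ := h.exists_Z1_of_q_eq_zero 𝓤 hZ (fun g => by
    have := congrFun hn'' g
    simp only [Z1map_coe, δ0_apply] at this
    simp only [Pi.sub_apply, δ0_apply, map_sub, h.hq]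
    rw [← this]
    abel)
  refine ⟨H1smπ 𝓤 N' y', ?_⟩
  rw [H1smMap_mk]
  -- difference is the coboundary of `n`
  have hsub : H1smπ 𝓤 N y - H1smπ 𝓤 N (Z1map 𝓤 i h.hi y') = 0 := by
    rw [← map_sub, H1smπ_eq_zero_iff]
    refine ⟨n, funext fun g => ?_⟩
    show δ0 N n g = y.1 g - i (y'.1 g)
    rw [hy']
    simp
  exact (sub_eq_zero.1 hsub).symm

/-- `H¹(N') → H¹(N)` kills the classes of the boundaries. -/
lemma RepSES.H1smMap_boundary (h : RepSES i q) (n : N) (y' : ↥(Z1 𝓤 N'))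
    (hy' : ∀ g, i (y'.1 g) = N.ρ g n - n) : H1smMap 𝓤 i h.hi (H1smπ 𝓤 N' y') = 0 := by
  rw [H1smMap_mk, H1smπ_eq_zero_iff]
  exact ⟨n, funext fun g => by rw [δ0_apply, Z1map_coe, hy']⟩

end LES

end Fermat.Agent.F4
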